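import Fermat.Prelude.Def_EllipticCurve_FrobeniusTrace
import Mathlib.FieldTheory.IsAlgClosed.AlgebraicClosure
import Mathlib.FieldTheory.Finite.Basic
import Mathlib.RingTheory.IntegralClosure.IntegrallyClosed
import Mathlib.RingTheory.Valuation.LocalSubring
import Mathlib.Algebra.Algebra.ZMod
import Mathlib.RingTheory.Polynomial.GaussLemma
import Mathlib.Algebra.CharP.Algebra

/-!
# Residue fields of places of `ℚ̄`
-/

set_option autoImplicit false

open IsLocalRing Polynomial

namespace Fermat.Agent.EC

theorem natCast_residue_eq_zero {L : Type*} [Field L] (A : ValuationSubring L) {q : ℕ}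
    (hA : A.LiesOverPrime q) : (q : ResidueField A) = 0 := by
  have h : ((q : A) : L) ∈ A.nonunits := hA
  rw [A.coe_mem_nonunits_iff, ← residue_eq_zero_iff, map_natCast] at h
  exact h

theorem charP_residueField {L : Type*} [Field L] (A : ValuationSubring L) {q : ℕ} (hq : q.Prime)
    (hA : A.LiesOverPrime q) : CharP (ResidueField A) q :=
  (CharP.charP_iff_prime_eq_zero hq).2 (natCast_residue_eq_zero A hA)

theorem natCast_residue_ne_zero {L : Type*} [Field L] (A : ValuationSubring L) {q n : ℕ}
    (hq : q.Prime) (hA : A.LiesOverPrime q) (hn : ¬ q ∣ n) : (n : ResidueField A) ≠ 0 := by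
  have := charP_residueField A hq hA
  rwa [Ne, CharP.cast_eq_zero_iff (ResidueField A) q]

theorem intCast_residue_eq_zero_iff {L : Type*} [Field L] (A : ValuationSubring L) {q : ℕ}
    (hq : q.Prime) (hA : A.LiesOverPrime q) (n : ℤ) :
    (n : ResidueField A) = 0 ↔ (q : ℤ) ∣ n := by
  have := charP_residueField A hq hA
  exact CharP.intCast_eq_zero_iff (ResidueField A) q n

/-- A root in the field of a monic polynomial over a valuation subring lies in the subring. -/
theorem mem_of_root_monic {L : Type*} [Field L] (A : ValuationSubring L) {p : A[X]} (hp : p.Monic)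
    {z : L} (hz : aeval z p = 0) : z ∈ A := by
  obtain ⟨y, rfl⟩ :=
    (IsIntegrallyClosed.isIntegral_iff (R := A) (K := L)).1 ⟨p, hp, hz⟩
  exact y.2

theorem isAlgClosed_residueField_of_isAlgClosed {L : Type*} [Field L] [IsAlgClosed L]
    (A : ValuationSubring L) : IsAlgClosed (ResidueField A) := by
  refine IsAlgClosed.of_exists_root _ fun p hp hirr => ?_
  obtain ⟨P, hP, hdeg, hPm⟩ := Polynomial.lifts_and_degree_eq_and_monic
    (Polynomial.mem_lifts_of_surjective residue_surjective p) hp
  have hd : (P.map (algebraMap A L)).degree ≠ 0 := by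
    rw [hPm.degree_map]
    rw [hdeg]
    exact (Polynomial.degree_pos_of_irreducible hirr).ne'
  obtain ⟨z, hz⟩ := IsAlgClosed.exists_root _ hd
  have hz' : aeval z P = 0 := by rwa [IsRoot.def, eval_map_algebraMap] at hz
  have hzA := mem_of_root_monic A hPm hz'
  refine ⟨residue A ⟨z, hzA⟩, ?_⟩
  have h0 : P.eval (⟨z, hzA⟩ : A) = 0 := by
    apply Subtype.ext
    have := aeval_algebraMap_apply_eq_algebraMap_eval (A := L) (⟨z, hzA⟩ : A) P
    rw [show (algebraMap A L) ⟨z, hzA⟩ = z from rfl, hz'] at this
    exact this.symm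
  rw [← hP, eval_map_apply, h0, map_zero]

theorem isAlgClosed_residueField (A : ValuationSubring (AlgebraicClosure ℚ)) :
    IsAlgClosed (ResidueField A) :=
  isAlgClosed_residueField_of_isAlgClosed A

/-- Every element of the residue field at a place over `q` is fixed by some power of the
`q`-power map. -/
theorem exists_pow_q_pow_eq_self (A : ValuationSubring (AlgebraicClosure ℚ)) {q : ℕ}
    (hq : q.Prime) (hA : A.LiesOverPrime q) (x : ResidueField A) :
    ∃ m, 0 < m ∧ x ^ q ^ m = x := by
  have : Fact q.Prime := ⟨hq⟩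
  have := charP_residueField A hq hA
  obtain ⟨a, rfl⟩ := residue_surjective x
  have halg : IsAlgebraic ℤ (a : AlgebraicClosure ℚ) :=
    (IsFractionRing.isAlgebraic_iff ℤ ℚ (AlgebraicClosure ℚ)).2
      ((AlgebraicClosure.isAlgebraic ℚ).isAlgebraic _)
  obtain ⟨p₀, hp0, hp₀⟩ := halg
  obtain ⟨p, hprim, hp⟩ : ∃ p : ℤ[X], p.IsPrimitive ∧ aeval (a : AlgebraicClosure ℚ) p = 0 :=
    ⟨p₀.primPart, p₀.isPrimitive_primPart, (aeval_primPart_eq_zero hp0 hp₀)⟩
  let := ZMod.algebra (ResidueField A) q
  have hne : p.map (Int.castRingHom (ZMod q)) ≠ 0 := by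
    intro h
    refine (Nat.prime_iff_prime_int.1 hq).not_isUnit (hprim _ ?_)
    rw [C_dvd_iff_dvd_coeff]
    intro i
    have hi := congrArg (fun f : (ZMod q)[X] => f.coeff i) h
    simp only [coeff_map, coeff_zero, eq_intCast] at hi
    exact (ZMod.intCast_zmod_eq_zero_iff_dvd _ _).1 hi
  have hx : aeval (residue A a) (p.map (Int.castRingHom (ZMod q))) = 0 := by
    have h1 : aeval a p = 0 := by
      apply Subtype.ext
      have := aeval_algHom_apply (A.subtype.toIntAlgHom) a p
      simp only [RingHom.toIntAlgHom_apply] at this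
      exact this.symm.trans hp
    have := aeval_algHom_apply ((residue A).toIntAlgHom) a p
    simp only [RingHom.toIntAlgHom_apply, h1, map_zero] at this
    rw [aeval_def, eval₂_map, RingHom.ext_int (((algebraMap (ZMod q) (ResidueField A)).comp
      (Int.castRingHom (ZMod q)))) (algebraMap ℤ (ResidueField A))]
    exact this
  have hint : IsIntegral (ZMod q) (residue A a) := IsAlgebraic.isIntegral ⟨_, hne, hx⟩
  let E := IntermediateField.adjoin (ZMod q) {residue A a}
  have : FiniteDimensional (ZMod q) E := IntermediateField.adjoin.finiteDimensional hint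
  have : Finite E := Module.finite_of_finite (ZMod q)
  have := Fintype.ofFinite E
  have : CharP E q := charP_of_injective_algebraMap (algebraMap (ZMod q) E).injective q
  obtain ⟨m, hmp, hm⟩ := FiniteField.card E q
  refine ⟨m, m.2, ?_⟩
  have h := congrArg Subtype.val
    (FiniteField.pow_card (⟨residue A a, IntermediateField.mem_adjoin_simple_self _ _⟩ : E))
  rw [hm] at h
  exact h

/-- The decomposition group preserves `A`. -/
theorem apply_mem_iff_of_mem_decompositionSubgroup {L : Type*} [Field L] {K : Type*} [Field K]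
    [Algebra K L] (A : ValuationSubring L) {σ : L ≃ₐ[K] L} (hσ : σ ∈ A.decompositionSubgroup K)
    (x : L) : σ x ∈ A ↔ x ∈ A := by
  open scoped Pointwise in
  conv_lhs => rw [← (MulAction.mem_stabilizer_iff.1 hσ : σ • A = A)]
  exact ValuationSubring.smul_mem_pointwise_smul_iff

/-- The action of the decomposition group on residues. -/
theorem residue_apply_of_mem_decompositionSubgroup {L : Type*} [Field L] {K : Type*} [Field K]
    [Algebra K L] (A : ValuationSubring L) {σ : L ≃ₐ[K] L} (hσ : σ ∈ A.decompositionSubgroup K)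
    {x : L} (hx : x ∈ A) :
    residue A ⟨σ x, (apply_mem_iff_of_mem_decompositionSubgroup A hσ x).2 hx⟩ =
      (⟨σ, hσ⟩ : A.decompositionSubgroup K) • residue A ⟨x, hx⟩ := by
  rw [← IsLocalRing.ResidueField.residue_smul]
  rfl

/-- An inertia element fixes residues. -/
theorem residue_apply_eq_of_mem_inertia {L : Type*} [Field L] {K : Type*} [Field K] [Algebra K L]
    (A : ValuationSubring L) {σ : L ≃ₐ[K] L} (hσ : σ ∈ A.inertiaSubgroupIn K) {x : L}
    (hx : x ∈ A) : ∃ h : σ x ∈ A, residue A ⟨σ x, h⟩ = residue A ⟨x, hx⟩ := by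
  obtain ⟨⟨τ, hτ⟩, hτi, rfl⟩ := hσ
  refine ⟨_, (residue_apply_of_mem_decompositionSubgroup A hτ hx).trans ?_⟩
  exact RingEquiv.congr_fun (MonoidHom.mem_ker.1 hτi) _

/-- A Frobenius element raises residues to the `q`-th power. -/
theorem residue_apply_eq_of_isFrobeniusAt {L : Type*} [Field L] {K : Type*} [Field K] [Algebra K L]
    (A : ValuationSubring L) {σ : L ≃ₐ[K] L} {q : ℕ} (hσ : A.IsFrobeniusAt σ q) {x : L}
    (hx : x ∈ A) : ∃ h : σ x ∈ A, residue A ⟨σ x, h⟩ = residue A ⟨x, hx⟩ ^ q := by
  obtain ⟨hσd, hσq⟩ := hσ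
  exact ⟨_, (residue_apply_of_mem_decompositionSubgroup A hσd hx).trans (hσq _)⟩

end Fermat.Agent.EC
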