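import Fermat.Agent.EC.Red.Kernel
import Fermat.Agent.EC.Red.ResidueQbar
import Fermat.Prelude.Def_EllipticCurve_ZeroComponentAt
import Fermat.Prelude.Def_FLTPrelim_Modularity

/-!
# Good reduction of an integral Weierstrass model at places of `ℚ̄`
-/

set_option autoImplicit false

open IsLocalRing
open WeierstrassCurve.Affine (Point)
open scoped WeierstrassCurve.Affine

namespace Fermat.Agent.EC

variable (W : WeierstrassCurve ℤ) (A : ValuationSubring (AlgebraicClosure ℚ))

noncomputable instance instDecEqResidueFieldQbar : DecidableEq (ResidueField A) :=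
  Classical.decEq _

/-- The special fibre at `A` of an integral model. -/
noncomputable abbrev specialFibre : WeierstrassCurve.Affine (ResidueField A) :=
  (W.map (Int.castRingHom (ResidueField A))).toAffine

/-- The reduction model of `W` at `A`. -/
noncomputable def qbarModel :
    RedModel A ((W.map (Int.castRingHom ℚ))⁄(AlgebraicClosure ℚ)).toAffine (specialFibre W A) where
  W := W.map (Int.castRingHom A)
  map_subtype := by
    ext <;> simp
  map_residue := by
    ext <;> simp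

theorem inE0_qbarModel_iff (P : ((W.map (Int.castRingHom ℚ))⁄(AlgebraicClosure ℚ)).Point) :
    (qbarModel W A).InE0 P ↔ W.InZeroComponentAt A P := by
  exact Iff.rfl

theorem exists_smul_some (σ : AlgebraicClosure ℚ ≃ₐ[ℚ] AlgebraicClosure ℚ)
    {x y : AlgebraicClosure ℚ}
    (h : ((W.map (Int.castRingHom ℚ))⁄(AlgebraicClosure ℚ)).toAffine.Nonsingular x y) :
    ∃ h' : ((W.map (Int.castRingHom ℚ))⁄(AlgebraicClosure ℚ)).toAffine.Nonsingular (σ x) (σ y),
      σ • (Point.some x y h : ((W.map (Int.castRingHom ℚ))⁄(AlgebraicClosure ℚ)).Point) =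
        .some _ _ h' :=
  ⟨_, rfl⟩

theorem nonsingular_residue (hΔ : (specialFibre W A).Δ ≠ 0) {x y : AlgebraicClosure ℚ}
    (h : ((W.map (Int.castRingHom ℚ))⁄(AlgebraicClosure ℚ)).toAffine.Nonsingular x y)
    (hx : x ∈ A) (hy : y ∈ A) :
    (specialFibre W A).Nonsingular (residue A ⟨x, hx⟩) (residue A ⟨y, hy⟩) := by
  rcases (qbarModel W A).inE0_of_Δ_ne_zero hΔ (.some x y h) with h0 | ⟨x', y', h', e, hh⟩
  · exact absurd h0 (Point.some_ne_zero _)
  · cases e
    rcases hh with hh | ⟨_, _, hns⟩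
    · exact absurd hx hh
    · exact hns

theorem red_some_of_singular {x y : AlgebraicClosure ℚ}
    (h : ((W.map (Int.castRingHom ℚ))⁄(AlgebraicClosure ℚ)).toAffine.Nonsingular x y)
    (hx : x ∈ A) (hy : y ∈ A)
    (hns : ¬ (specialFibre W A).Nonsingular (residue A ⟨x, hx⟩) (residue A ⟨y, hy⟩)) :
    (qbarModel W A).red (.some x y h) = 0 := by
  classical
  exact dif_neg fun ⟨_, _, h'⟩ => hns h'

theorem specialFibre_Δ_ne_zero {q : ℕ} (hq : q.Prime) (hA : A.LiesOverPrime q)
    (hgood : W.IsGoodPrimeFor q) : (specialFibre W A).Δ ≠ 0 := by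
  rw [WeierstrassCurve.map_Δ, eq_intCast, Ne, intCast_residue_eq_zero_iff A hq hA]
  exact hgood

/-- Reduction commutes with Frobenius, which becomes the `q`-power map on coordinates. -/
theorem red_smul_of_isFrobeniusAt {q : ℕ} (hq : q.Prime) (hA : A.LiesOverPrime q)
    (hgood : W.IsGoodPrimeFor q) {σ : AlgebraicClosure ℚ ≃ₐ[ℚ] AlgebraicClosure ℚ}
    (hσ : A.IsFrobeniusAt σ q) (P : ((W.map (Int.castRingHom ℚ))⁄(AlgebraicClosure ℚ)).Point) :
    ((qbarModel W A).red P = 0 ∧ (qbarModel W A).red (σ • P) = 0) ∨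
      ∃ (u v : ResidueField A) (h : (specialFibre W A).Nonsingular u v)
        (h' : (specialFibre W A).Nonsingular (u ^ q) (v ^ q)),
        (qbarModel W A).red P = .some u v h ∧ (qbarModel W A).red (σ • P) = .some _ _ h' := by
  have hΔ := specialFibre_Δ_ne_zero W A hq hA hgood
  obtain _ | ⟨x, y, h⟩ := P
  · exact Or.inl ⟨rfl, rfl⟩
  obtain ⟨h', e⟩ := exists_smul_some W σ h
  rw [e]
  have hd := hσ.mem_decompositionSubgroup
  by_cases hx : x ∈ A
  · have hy := (qbarModel W A).mem_y_of_mem_x h.1 hx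
    obtain ⟨hσx, ex⟩ := residue_apply_eq_of_isFrobeniusAt A hσ hx
    obtain ⟨hσy, ey⟩ := residue_apply_eq_of_isFrobeniusAt A hσ hy
    have hns := nonsingular_residue W A hΔ h hx hy
    have hns' := nonsingular_residue W A hΔ h' hσx hσy
    rw [ex, ey] at hns'
    refine Or.inr ⟨_, _, hns, hns', (qbarModel W A).red_some h hx hy hns, ?_⟩
    rw [(qbarModel W A).red_some h' hσx hσy (by rw [ex, ey]; exact hns')]
    simp only [ex, ey]
  · exact Or.inl ⟨(qbarModel W A).red_some_of_not_mem h hx,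
      (qbarModel W A).red_some_of_not_mem h'
        fun h0 => hx ((apply_mem_iff_of_mem_decompositionSubgroup A hd x).1 h0)⟩

theorem red_smul_of_mem_inertia {σ : AlgebraicClosure ℚ ≃ₐ[ℚ] AlgebraicClosure ℚ}
    (hσ : σ ∈ A.inertiaSubgroupIn ℚ)
    (P : ((W.map (Int.castRingHom ℚ))⁄(AlgebraicClosure ℚ)).Point) :
    (qbarModel W A).red (σ • P) = (qbarModel W A).red P := by
  obtain _ | ⟨x, y, h⟩ := P
  · rfl
  obtain ⟨h', e⟩ := exists_smul_some W σ h
  rw [e]
  obtain ⟨⟨τ, hd⟩, -, rfl⟩ := id hσ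
  by_cases hx : x ∈ A
  · have hy := (qbarModel W A).mem_y_of_mem_x h.1 hx
    obtain ⟨hσx, ex⟩ := residue_apply_eq_of_mem_inertia A hσ hx
    obtain ⟨hσy, ey⟩ := residue_apply_eq_of_mem_inertia A hσ hy
    by_cases hns : (specialFibre W A).Nonsingular (residue A ⟨x, hx⟩) (residue A ⟨y, hy⟩)
    · rw [(qbarModel W A).red_some h hx hy hns,
        (qbarModel W A).red_some h' hσx hσy (by rw [ex, ey]; exact hns)]
      simp only [ex, ey]
    · rw [red_some_of_singular W A h hx hy hns,
        red_some_of_singular W A h' hσx hσy (by rw [ex, ey]; exact hns)]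
  · rw [(qbarModel W A).red_some_of_not_mem h hx,
      (qbarModel W A).red_some_of_not_mem h'
        fun h0 => hx ((apply_mem_iff_of_mem_decompositionSubgroup A hd x).1 h0)]

/-- Inertia fixes torsion prime to the residue characteristic at good places. -/
theorem smul_eq_of_mem_inertia {q : ℕ} (hq : q.Prime) (hA : A.LiesOverPrime q)
    (hgood : W.IsGoodPrimeFor q) {σ : AlgebraicClosure ℚ ≃ₐ[ℚ] AlgebraicClosure ℚ}
    (hσ : σ ∈ A.inertiaSubgroupIn ℚ) {n : ℕ} (hn : ¬ q ∣ n)
    {P : ((W.map (Int.castRingHom ℚ))⁄(AlgebraicClosure ℚ)).Point} (hP : n • P = 0) :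
    σ • P = P := by
  refine (qbarModel W A).redHom_injOn_torsion (specialFibre_Δ_ne_zero W A hq hA hgood)
    (natCast_residue_ne_zero A hq hA hn) ?_ hP (red_smul_of_mem_inertia W A hσ P)
  rw [← natCast_zsmul, ← WeierstrassCurve.Affine.Point.algEquiv_smul_zsmul, natCast_zsmul, hP,
    smul_zero]

theorem galoisRepUnramifiedAt_of_isGoodPrimeFor {q : ℕ} (hq : q.Prime)
    (hgood : W.IsGoodPrimeFor q) {n : ℕ} (hn : ¬ q ∣ n) :
    WeierstrassCurve.Affine.Point.GaloisRepUnramifiedAt (K := AlgebraicClosure ℚ) ℚ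
      (W.map (Int.castRingHom ℚ)) n q := by
  intro A hA σ hσ x
  refine Subtype.ext (smul_eq_of_mem_inertia W A hq hA hgood hσ hn ?_)
  rw [← natCast_zsmul]
  exact (Submodule.mem_torsionBy_iff _ _).1 x.2

end Fermat.Agent.EC
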