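import Fermat.Agent.EC.Red.Kernel
import Mathlib.FieldTheory.IsAlgClosed.Basic
import Mathlib.Algebra.Module.Torsion.Basic

/-!
# Reduction is onto over an algebraically closed field
-/

set_option autoImplicit false

open IsLocalRing
open WeierstrassCurve.Affine (Point)

namespace Fermat.Agent.EC

variable {K : Type*} [Field K] {A : ValuationSubring K}
  {V : WeierstrassCurve.Affine K} {Vb : WeierstrassCurve.Affine (ResidueField A)}

namespace RedModel

variable [IsAlgClosed K]

/-- Every nonsingular point of the special fibre lifts. -/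
theorem exists_lift_nonsingular (M : RedModel A V Vb) {u v : ResidueField A}
    (h : Vb.Nonsingular u v) :
    ∃ (x y : A), V.Nonsingular (x : K) (y : K) ∧ residue A x = u ∧ residue A y = v := by
  obtain ⟨W, rfl, rfl⟩ := M
  obtain ⟨x, rfl⟩ := residue_surjective u
  set b : K := ((W.a₁ * x + W.a₃ : A) : K) with hb
  set c : K := ((x ^ 3 + W.a₂ * x ^ 2 + W.a₄ * x + W.a₆ : A) : K) with hc
  obtain ⟨r, hr⟩ := IsAlgClosed.exists_root
    (Polynomial.C (1 : K) * Polynomial.X ^ 2 + Polynomial.C b * Polynomial.X + Polynomial.C (-c))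
    (by rw [Polynomial.degree_quadratic one_ne_zero]; decide)
  simp only [Polynomial.IsRoot.def, Polynomial.eval_add, Polynomial.eval_mul, Polynomial.eval_C,
    Polynomial.eval_pow, Polynomial.eval_X] at hr
  have hE : (W.map A.subtype).toAffine.Equation (x : K) r := by
    rw [WeierstrassCurve.Affine.equation_iff]
    simp [hb, hc] at hr ⊢
    linear_combination hr
  have hrA : r ∈ A :=
    (⟨W, rfl, rfl⟩ : RedModel A (W.map A.subtype).toAffine
      (W.map (residue A)).toAffine).mem_y_of_mem_x hE x.2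
  have hEA : W.toAffine.Equation x ⟨r, hrA⟩ :=
    (W.toAffine.map_equation (f := A.subtype) Subtype.val_injective _ _).1 hE
  -- `v` is the residue of one of the two roots
  obtain ⟨y, hy, hyv⟩ : ∃ y : A, W.toAffine.Equation x y ∧ residue A y = v := by
    rcases WeierstrassCurve.Affine.Y_eq_of_X_eq h.1 (hEA.map (residue A)) rfl with e | e
    · exact ⟨⟨r, hrA⟩, hEA, e.symm⟩
    · refine ⟨W.toAffine.negY x ⟨r, hrA⟩,
        (WeierstrassCurve.Affine.equation_neg x _).2 hEA, ?_⟩
      rw [e]
      exact (WeierstrassCurve.Affine.map_negY (W' := W.toAffine) (residue A) x ⟨r, hrA⟩).symm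
  subst hyv
  refine ⟨x, y, ?_, rfl, rfl⟩
  refine (W.toAffine.map_nonsingular (f := A.subtype) Subtype.val_injective x y).2 ⟨hy, ?_⟩
  rw [WeierstrassCurve.Affine.nonsingular_iff'] at h
  rw [WeierstrassCurve.Affine.evalEval_polynomialX, WeierstrassCurve.Affine.evalEval_polynomialY]
  refine h.2.imp (fun h' h0 => h' ?_) (fun h' h0 => h' ?_)
  · have := congrArg (residue A) h0
    simp only [map_sub, map_add, map_mul, map_pow, map_ofNat, map_zero] at this
    simpa using this
  · have := congrArg (residue A) h0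
    simp only [map_add, map_mul, map_ofNat, map_zero] at this
    simpa using this

theorem exists_red_eq (M : RedModel A V Vb) (Q : Vb.Point) :
    ∃ P : V.Point, M.InE0 P ∧ M.red P = Q := by
  obtain _ | ⟨u, v, h⟩ := Q
  · exact ⟨0, Or.inl rfl, rfl⟩
  obtain ⟨x, y, hxy, rfl, rfl⟩ := M.exists_lift_nonsingular h
  exact ⟨.some _ _ hxy, Or.inr ⟨_, _, hxy, rfl, Or.inr ⟨x.2, y.2, h⟩⟩,
    M.red_some hxy x.2 y.2 h⟩

theorem redHom_surjective [DecidableEq K] [DecidableEq (ResidueField A)] (M : RedModel A V Vb)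
    (hΔ : Vb.Δ ≠ 0) : Function.Surjective (M.redHom hΔ) := fun Q => by
  obtain ⟨P, -, hP⟩ := M.exists_red_eq Q
  exact ⟨P, hP⟩

end RedModel

namespace RedModel

variable [DecidableEq K] [DecidableEq (ResidueField A)]

/-- Reduction on `n`-torsion. -/
noncomputable def redTorsion (M : RedModel A V Vb) (hΔ : Vb.Δ ≠ 0) (n : ℕ) :
    Submodule.torsionBy ℤ V.Point n →+ Submodule.torsionBy ℤ Vb.Point n where
  toFun P := ⟨M.redHom hΔ P.1, by
    rw [Submodule.mem_torsionBy_iff, ← map_zsmul, (Submodule.mem_torsionBy_iff _ _).1 P.2,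
      map_zero]⟩
  map_zero' := Subtype.ext (map_zero (M.redHom hΔ))
  map_add' P Q := Subtype.ext (map_add (M.redHom hΔ) P.1 Q.1)

@[simp]
theorem coe_redTorsion (M : RedModel A V Vb) (hΔ : Vb.Δ ≠ 0) (n : ℕ)
    (P : Submodule.torsionBy ℤ V.Point n) :
    (M.redTorsion hΔ n P : Vb.Point) = M.red (P : V.Point) := rfl

theorem redTorsion_injective (M : RedModel A V Vb) (hΔ : Vb.Δ ≠ 0) {n : ℕ}
    (hn : (n : ResidueField A) ≠ 0) : Function.Injective (M.redTorsion hΔ n) := by
  intro P Q h
  apply Subtype.ext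
  refine M.redHom_injOn_torsion hΔ hn ?_ ?_ (congrArg Subtype.val h)
  · rw [← natCast_zsmul]
    exact (Submodule.mem_torsionBy_iff _ _).1 P.2
  · rw [← natCast_zsmul]
    exact (Submodule.mem_torsionBy_iff _ _).1 Q.2

theorem redTorsion_bijective (M : RedModel A V Vb) (hΔ : Vb.Δ ≠ 0) {n : ℕ}
    (hn : (n : ResidueField A) ≠ 0) [Finite (Submodule.torsionBy ℤ Vb.Point n)]
    (hcard : Nat.card (Submodule.torsionBy ℤ V.Point n) =
      Nat.card (Submodule.torsionBy ℤ Vb.Point n)) : Function.Bijective (M.redTorsion hΔ n) := by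
  have hinj := M.redTorsion_injective hΔ hn
  have := Finite.of_injective _ hinj
  exact (Nat.bijective_iff_injective_and_card _).2 ⟨hinj, hcard⟩

end RedModel

end Fermat.Agent.EC
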