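import Fermat.Agent.EC.Red.Hom
import Fermat.Agent.EC.DivPoly.MulFormula
import Mathlib.AlgebraicGeometry.EllipticCurve.DivisionPolynomial.Degree
import Mathlib.RingTheory.Valuation.Integral

/-!
# The kernel of reduction has no torsion prime to the residue characteristic
-/

set_option autoImplicit false

open IsLocalRing
open WeierstrassCurve.Affine (Point)

namespace Fermat.Agent.EC

variable {K : Type*} [Field K] [DecidableEq K] {A : ValuationSubring K}
  [DecidableEq (ResidueField A)]
  {V : WeierstrassCurve.Affine K} {Vb : WeierstrassCurve.Affine (ResidueField A)}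

namespace RedModel

omit [DecidableEq (ResidueField A)] in
theorem eq_zero_of_red_eq_zero_of_nsmul_eq_zero (M : RedModel A V Vb) {P : V.Point}
    (hP : M.InE0 P) (hred : M.red P = 0) {n : ℕ} (hn : (n : ResidueField A) ≠ 0)
    (hnP : n • P = 0) : P = 0 := by
  rcases (M.red_eq_zero_iff hP).1 hred with rfl | ⟨x, y, h, rfl, hx⟩
  · rfl
  exfalso
  apply hx
  have h0 : (V.ΨSq n).eval x = 0 := (nsmul_some_eq_zero_iff h n).1 hnP
  obtain ⟨W, rfl, rfl⟩ := M
  set q : Polynomial A := W.ΨSq n with hq
  have hnA : ((n : ℤ) : A) ≠ 0 := by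
    intro h
    exact hn (by simpa using congrArg (residue A) h)
  have hu : IsUnit q.leadingCoeff := by
    rw [hq, W.leadingCoeff_ΨSq hnA, ← residue_ne_zero_iff_isUnit]
    simpa using hn
  obtain ⟨c, hc⟩ := hu.exists_left_inv
  have hint : IsIntegral A x := by
    refine ⟨Polynomial.C c * q, ?_, ?_⟩
    · exact Polynomial.monic_C_mul_of_mul_leadingCoeff_eq_one hc
    · rw [WeierstrassCurve.map_ΨSq, Polynomial.eval_map, ← hq] at h0
      rw [Polynomial.eval₂_mul, show (algebraMap A K) = A.subtype from rfl, h0, mul_zero]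
  have hv : A.valuation.Integers A :=
    { hom_inj := Subtype.val_injective
      map_le_one := A.valuation_le_one
      exists_of_le_one := fun {r} hr => ⟨⟨r, (A.valuation_le_one_iff r).1 hr⟩, rfl⟩ }
  exact (A.valuation_le_one_iff x).1 (hv.mem_of_integral hint)

theorem redHom_injOn_torsion (M : RedModel A V Vb) (hΔ : Vb.Δ ≠ 0) {n : ℕ}
    (hn : (n : ResidueField A) ≠ 0) {P Q : V.Point} (hP : n • P = 0) (hQ : n • Q = 0)
    (h : M.red P = M.red Q) : P = Q := by
  have h0 : M.red (P - Q) = 0 := by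
    rw [← M.redHom_apply hΔ, map_sub, M.redHom_apply hΔ, M.redHom_apply hΔ, h, sub_self]
  refine sub_eq_zero.1 (M.eq_zero_of_red_eq_zero_of_nsmul_eq_zero
    (M.inE0_of_Δ_ne_zero hΔ _) h0 hn ?_)
  rw [nsmul_sub, hP, hQ, sub_zero]

end RedModel

end Fermat.Agent.EC
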