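import Fermat.Agent.EC.Red.Model
import Mathlib.AlgebraicGeometry.EllipticCurve.Projective.Point
import Mathlib.Tactic.LinearCombination
import Mathlib.Tactic.FieldSimp

/-!
# Reduction is a group homomorphism on the points with nonsingular reduction
-/

set_option autoImplicit false

open IsLocalRing
open WeierstrassCurve.Affine (Point)

namespace Fermat.Agent.EC

variable {K : Type*} [Field K] [DecidableEq K] {A : ValuationSubring K}
  [DecidableEq (ResidueField A)]
  {V : WeierstrassCurve.Affine K} {Vb : WeierstrassCurve.Affine (ResidueField A)}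

section aux

omit [DecidableEq K] [DecidableEq (ResidueField A)]

theorem exists_residue_zero_coe_inv {x : K} (hx : x ∉ A) :
    ∃ u : A, residue A u = 0 ∧ (u : K) = x⁻¹ := by
  have hm : x⁻¹ ∈ A := (A.mem_or_inv_mem x).resolve_left hx
  refine ⟨⟨x⁻¹, hm⟩, ?_, rfl⟩
  rw [residue_eq_zero_iff]
  intro hu
  obtain ⟨v, hv⟩ := hu.exists_right_inv
  have hx0 : x ≠ 0 := fun h => hx (h ▸ A.zero_mem)
  have hv' : x⁻¹ * (v : K) = 1 := congrArg Subtype.val hv
  apply hx
  have : x = (v : K) := by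
    calc x = x * (x⁻¹ * (v : K)) := by rw [hv', mul_one]
      _ = v := by rw [← mul_assoc, mul_inv_cancel₀ hx0, one_mul]
  rw [this]
  exact v.2

theorem mul_not_mem {x y : K} (hx : x ∉ A) (hy : y ∉ A) : x * y ∉ A := by
  intro h
  have hy0 : y ≠ 0 := fun h => hy (h ▸ A.zero_mem)
  obtain ⟨u, -, hu⟩ := exists_residue_zero_coe_inv hy
  apply hx
  have h' := A.mul_mem _ _ h u.2
  rwa [hu, mul_assoc, mul_inv_cancel₀ hy0, mul_one] at h'

/-- Two expressions of the slope of the chord or tangent through two points. -/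
theorem slope_mul_eq {F : Type*} [Field F] [DecidableEq F] {W : WeierstrassCurve.Affine F}
    {x₁ x₂ y₁ y₂ : F} (h₁ : W.Equation x₁ y₁) (h₂ : W.Equation x₂ y₂)
    (hxy : ¬(x₁ = x₂ ∧ y₁ = W.negY x₂ y₂)) :
    W.slope x₁ x₂ y₁ y₂ * (x₁ - x₂) = y₁ - y₂ ∧
      W.slope x₁ x₂ y₁ y₂ * (y₁ + y₂ + W.a₁ * x₂ + W.a₃) =
        x₁ ^ 2 + x₁ * x₂ + x₂ ^ 2 + W.a₂ * (x₁ + x₂) + W.a₄ - W.a₁ * y₁ := by
  by_cases hx : x₁ = x₂
  · have hy : y₁ ≠ W.negY x₂ y₂ := fun h => hxy ⟨hx, h⟩
    have hyy := WeierstrassCurve.Affine.Y_eq_of_Y_ne h₁ h₂ hx hy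
    subst hx hyy
    refine ⟨by simp, ?_⟩
    rw [WeierstrassCurve.Affine.slope_of_Y_ne rfl hy]
    have hd : y₁ - W.negY x₁ y₁ ≠ 0 := sub_ne_zero.2 hy
    rw [div_mul_eq_mul_div, div_eq_iff hd, WeierstrassCurve.Affine.negY]
    ring
  · have hd : x₁ - x₂ ≠ 0 := sub_ne_zero.2 hx
    rw [WeierstrassCurve.Affine.slope_of_X_ne hx]
    refine ⟨div_mul_cancel₀ _ hd, ?_⟩
    rw [WeierstrassCurve.Affine.equation_iff] at h₁ h₂
    rw [div_mul_eq_mul_div, div_eq_iff hd]
    linear_combination h₁ - h₂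

end aux

namespace RedModel

section basic

omit [DecidableEq K] [DecidableEq (ResidueField A)]

theorem mem_y_of_mem_x (M : RedModel A V Vb) {x y : K} (h : V.Equation x y) (hx : x ∈ A) :
    y ∈ A := by
  obtain ⟨W, rfl, rfl⟩ := M
  by_contra hy
  have hy0 : y ≠ 0 := fun h => hy (h ▸ A.zero_mem)
  obtain ⟨u, hu0, hu⟩ := exists_residue_zero_coe_inv hy
  have key : 1 + u * (W.a₁ * ⟨x, hx⟩ + W.a₃) =
      u ^ 2 * ((⟨x, hx⟩ : A) ^ 3 + W.a₂ * ⟨x, hx⟩ ^ 2 + W.a₄ * ⟨x, hx⟩ + W.a₆) := by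
    rw [WeierstrassCurve.Affine.equation_iff] at h
    simp at h
    apply Subtype.ext
    push_cast
    rw [hu]
    field_simp
    linear_combination h
  simpa [hu0] using congrArg (residue A) key

theorem not_mem_y_of_not_mem_x (M : RedModel A V Vb) {x y : K} (h : V.Equation x y) (hx : x ∉ A) :
    y ∉ A ∧ x / y ∈ A.nonunits ∧ 1 / y ∈ A.nonunits := by
  obtain ⟨W, rfl, rfl⟩ := M
  have hx0 : x ≠ 0 := fun h => hx (h ▸ A.zero_mem)
  obtain ⟨u, hu0, hu⟩ := exists_residue_zero_coe_inv hx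
  have ht : y / x ∉ A := by
    intro ht
    have key : u * (⟨y / x, ht⟩ : A) ^ 2 + W.a₁ * u * ⟨y / x, ht⟩ + W.a₃ * u ^ 2 * ⟨y / x, ht⟩ =
        1 + W.a₂ * u + W.a₄ * u ^ 2 + W.a₆ * u ^ 3 := by
      rw [WeierstrassCurve.Affine.equation_iff] at h
      simp at h
      apply Subtype.ext
      push_cast
      rw [hu]
      field_simp
      linear_combination h
    simpa [hu0] using congrArg (residue A) key
  have hy : y ∉ A := fun hy => ht <| by
    simpa [div_eq_mul_inv, hu] using A.mul_mem _ _ hy u.2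
  refine ⟨hy, ?_, ?_⟩
  · obtain ⟨v, hv0, hv⟩ := exists_residue_zero_coe_inv ht
    rw [← inv_div, ← hv]
    exact (A.coe_mem_nonunits_iff).2 ((residue_eq_zero_iff v).1 hv0)
  · obtain ⟨v, hv0, hv⟩ := exists_residue_zero_coe_inv hy
    rw [one_div, ← hv]
    exact (A.coe_mem_nonunits_iff).2 ((residue_eq_zero_iff v).1 hv0)

theorem inE0_zero (M : RedModel A V Vb) : M.InE0 0 := Or.inl rfl

theorem inE0_some_of_not_mem (M : RedModel A V Vb) {x y : K} (h : V.Nonsingular x y) (hx : x ∉ A) :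
    M.InE0 (.some x y h) :=
  Or.inr ⟨x, y, h, rfl, Or.inl hx⟩

theorem inE0_some_of_nonsingular (M : RedModel A V Vb) {x y : K} (h : V.Nonsingular x y)
    (hx : x ∈ A) (hy : y ∈ A)
    (hns : Vb.Nonsingular (residue A ⟨x, hx⟩) (residue A ⟨y, hy⟩)) : M.InE0 (.some x y h) :=
  Or.inr ⟨x, y, h, rfl, Or.inr ⟨hx, hy, hns⟩⟩

/-- Case analysis on points of `E₀`. -/
theorem inE0_cases (M : RedModel A V Vb) {P : V.Point} (hP : M.InE0 P) :
    P = 0 ∨
      (∃ (x y : K) (h : V.Nonsingular x y), P = .some x y h ∧ x ∉ A) ∨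
      ∃ (x y : A) (h : V.Nonsingular x y), P = .some (x : K) (y : K) h ∧
        Vb.Nonsingular (residue A x) (residue A y) := by
  rcases hP with rfl | ⟨x, y, h, rfl, hx | ⟨hx, hy, hns⟩⟩
  · exact Or.inl rfl
  · exact Or.inr (Or.inl ⟨x, y, h, rfl, hx⟩)
  · exact Or.inr (Or.inr ⟨⟨x, hx⟩, ⟨y, hy⟩, h, rfl, hns⟩)

theorem red_some_coe (M : RedModel A V Vb) {x y : A} (h : V.Nonsingular x y)
    (hns : Vb.Nonsingular (residue A x) (residue A y)) :
    M.red (.some (x : K) (y : K) h) = .some _ _ hns :=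
  M.red_some h x.2 y.2 hns

/-- With good reduction every point has nonsingular reduction. -/
theorem inE0_of_Δ_ne_zero (M : RedModel A V Vb) (hΔ : Vb.Δ ≠ 0) (P : V.Point) : M.InE0 P := by
  obtain _ | ⟨x, y, h⟩ := P
  · exact Or.inl rfl
  by_cases hx : x ∈ A
  · have hy := M.mem_y_of_mem_x h.1 hx
    refine M.inE0_some_of_nonsingular h hx hy ?_
    obtain ⟨W, rfl, rfl⟩ := M
    have hE : W.toAffine.Equation ⟨x, hx⟩ ⟨y, hy⟩ :=
      (W.toAffine.map_equation (f := A.subtype) Subtype.val_injective _ _).1 h.1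
    exact (WeierstrassCurve.Affine.equation_iff_nonsingular_of_Δ_ne_zero hΔ).1
      (hE.map (residue A))
  · exact M.inE0_some_of_not_mem h hx

/-- A point of `E₀` reduces to zero iff it is zero or its `x`-coordinate is not integral. -/
theorem red_eq_zero_iff (M : RedModel A V Vb) {P : V.Point} (hP : M.InE0 P) :
    M.red P = 0 ↔ P = 0 ∨ ∃ (x y : K) (h : V.Nonsingular x y), P = .some x y h ∧ x ∉ A := by
  refine ⟨fun h0 => ?_, ?_⟩
  · rcases M.inE0_cases hP with h | h | ⟨x, y, h, rfl, hns⟩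
    · exact Or.inl h
    · exact Or.inr h
    · rw [M.red_some_coe h hns] at h0
      exact absurd h0 (WeierstrassCurve.Affine.Point.some_ne_zero _)
  · rintro (rfl | ⟨x, y, h, rfl, hx⟩)
    · rfl
    · exact M.red_some_of_not_mem h hx

theorem inE0_neg_and_red_neg (M : RedModel A V Vb) {P : V.Point} (hP : M.InE0 P) :
    M.InE0 (-P) ∧ M.red (-P) = -M.red P := by
  rcases M.inE0_cases hP with rfl | ⟨x, y, h, rfl, hx⟩ | ⟨x, y, h, rfl, hns⟩
  · exact ⟨Or.inl rfl, rfl⟩
  · rw [WeierstrassCurve.Affine.Point.neg_some, M.red_some_of_not_mem h hx]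
    exact ⟨M.inE0_some_of_not_mem _ hx, M.red_some_of_not_mem _ hx⟩
  · obtain ⟨W, rfl, rfl⟩ := M
    have e : (W.map A.subtype).toAffine.negY (x : K) (y : K) = (W.toAffine.negY x y : A) :=
      WeierstrassCurve.Affine.map_negY (W' := W.toAffine) A.subtype x y
    have e' : (W.map (residue A)).toAffine.negY (residue A x) (residue A y) =
        residue A (W.toAffine.negY x y) :=
      WeierstrassCurve.Affine.map_negY (W' := W.toAffine) (residue A) x y
    have h' := (WeierstrassCurve.Affine.nonsingular_neg ..).2 h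
    have hns' := (WeierstrassCurve.Affine.nonsingular_neg ..).2 hns
    simp only [e] at h'
    simp only [e'] at hns'
    rw [RedModel.red_some_coe _ h hns, WeierstrassCurve.Affine.Point.neg_some,
      WeierstrassCurve.Affine.Point.neg_some]
    simp only [e, e']
    exact ⟨inE0_some_of_nonsingular _ h' x.2 (W.toAffine.negY x y).2 hns',
      RedModel.red_some_coe _ h' hns'⟩

theorem inE0_neg (M : RedModel A V Vb) {P : V.Point} (hP : M.InE0 P) : M.InE0 (-P) :=
  (M.inE0_neg_and_red_neg hP).1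

theorem red_neg (M : RedModel A V Vb) {P : V.Point} (hP : M.InE0 P) :
    M.red (-P) = -M.red P :=
  (M.inE0_neg_and_red_neg hP).2

end basic

omit [DecidableEq (ResidueField A)] in
/-- Translation by a point of the kernel of reduction does not change the residues of an integral
point. -/
theorem exists_add_of_not_mem (M : RedModel A V Vb) {x₁ y₁ : K} (h₁ : V.Nonsingular x₁ y₁)
    (hx₁ : x₁ ∉ A) {x₂ y₂ : A} (h₂ : V.Nonsingular x₂ y₂) :
    ∃ (x₃ y₃ : A) (h₃ : V.Nonsingular x₃ y₃),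
      Point.some _ _ h₁ + Point.some _ _ h₂ = Point.some (x₃ : K) (y₃ : K) h₃ ∧
        residue A x₃ = residue A x₂ ∧ residue A y₃ = residue A y₂ := by
  obtain ⟨W, rfl, rfl⟩ := M
  obtain ⟨hy₁, hz, hw⟩ :=
    (⟨W, rfl, rfl⟩ : RedModel A (W.map A.subtype).toAffine
      (W.map (residue A)).toAffine).not_mem_y_of_not_mem_x h₁.1 hx₁
  obtain ⟨hzA, hz0⟩ := ValuationSubring.mem_nonunits_iff_exists_mem_maximalIdeal.1 hz
  obtain ⟨hwA, hw0⟩ := ValuationSubring.mem_nonunits_iff_exists_mem_maximalIdeal.1 hw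
  rw [← residue_eq_zero_iff] at hz0 hw0
  let z : A := ⟨x₁ / y₁, hzA⟩
  let w : A := ⟨1 / y₁, hwA⟩
  let P : Fin 3 → A := ![z, 1, w]
  let Q : Fin 3 → A := ![x₂, y₂, 1]
  have hy0 : y₁ ≠ 0 := fun h => hy₁ (h ▸ A.zero_mem)
  have hx : x₁ ≠ x₂ := fun h => hx₁ (h ▸ x₂.2)
  -- over the residue field
  have hPk : (residue A : A → _) ∘ P = ![0, 1, 0] := by
    funext i; fin_cases i <;> simp [P, z, w, hz0, -one_div, hw0]
  have hQk : (residue A : A → _) ∘ Q = ![residue A x₂, residue A y₂, 1] := by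
    funext i; fin_cases i <;> simp [Q]
  have hEk : (W.map (residue A)).toProjective.Equation ![0, 1, 0] :=
    WeierstrassCurve.Projective.equation_zero
  have hX : residue A (W.toProjective.addX P Q) = residue A x₂ := by
    rw [← WeierstrassCurve.Projective.map_addX, hPk, hQk]
    exact (WeierstrassCurve.Projective.addX_of_Z_eq_zero_left hEk rfl).trans (by simp)
  have hY : residue A (W.toProjective.addY P Q) = residue A y₂ := by
    rw [← WeierstrassCurve.Projective.map_addY, hPk, hQk]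
    exact (WeierstrassCurve.Projective.addY_of_Z_eq_zero_left hEk rfl).trans (by simp)
  have hZ : residue A (W.toProjective.addZ P Q) = 1 := by
    rw [← WeierstrassCurve.Projective.map_addZ, hPk, hQk]
    exact (WeierstrassCurve.Projective.addZ_of_Z_eq_zero_left hEk rfl).trans (by simp)
  -- over `K`
  have hPK : (A.subtype : A → K) ∘ P = ![x₁ / y₁, 1, 1 / y₁] := by
    funext i; fin_cases i <;> simp [P, z, w]
  have hQK : (A.subtype : A → K) ∘ Q = ![(x₂ : K), (y₂ : K), 1] := by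
    funext i; fin_cases i <;> simp [Q]
  set VP := (W.map A.subtype).toProjective with hVP
  have hP' : VP.Equation ![x₁ / y₁, 1, 1 / y₁] := by
    rw [WeierstrassCurve.Projective.equation_of_Z_ne_zero (by simp [hy0])]
    simpa [hy0] using h₁.1
  have hQ' : VP.Equation ![(x₂ : K), (y₂ : K), 1] :=
    (WeierstrassCurve.Projective.equation_some _ _).2 h₂.1
  have hne : x₁ / y₁ * 1 ≠ (x₂ : K) * (1 / y₁) := by
    intro h
    apply hx
    field_simp at h
    exact h
  have eX := WeierstrassCurve.Projective.addX_of_Z_ne_zero hP' hQ' (by simp [hy0]) (by simp) hne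
  have eY := WeierstrassCurve.Projective.addY_of_Z_ne_zero hP' hQ' (by simp [hy0]) (by simp) hne
  have d₁ : x₁ / y₁ / (1 / y₁) = x₁ := by field_simp
  have d₂ : 1 / (1 / y₁) = y₁ := one_div_one_div y₁
  simp only [Matrix.cons_val, Matrix.cons_val_zero, Matrix.cons_val_one, d₁, d₂, div_one]
    at eX eY
  rw [← hPK, ← hQK, hVP, WeierstrassCurve.Projective.map_addX,
    WeierstrassCurve.Projective.map_addZ] at eX
  rw [← hPK, ← hQK, hVP, WeierstrassCurve.Projective.map_addY,
    WeierstrassCurve.Projective.map_addZ] at eY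
  set Z := W.toProjective.addZ P Q with hZdef
  obtain ⟨Zi, hZi⟩ : ∃ Zi : A, Z * Zi = 1 :=
    IsUnit.exists_right_inv <| (residue_ne_zero_iff_isUnit Z).1 (by rw [hZ]; exact one_ne_zero)
  have hZK : ∀ a : A, ((a * Zi : A) : K) = (a : K) / (Z : K) := by
    intro a
    have h1 : (Z : K) * Zi = 1 := congrArg Subtype.val hZi
    rw [eq_div_iff (left_ne_zero_of_mul_eq_one h1)]
    push_cast
    linear_combination (a : K) * h1
  have hZik : residue A Zi = 1 := by
    simpa [hZ] using congrArg (residue A) hZi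
  have hxy : ¬(x₁ = (x₂ : K) ∧ y₁ = (W.map A.subtype).toAffine.negY (x₂ : K) (y₂ : K)) :=
    fun h => hx h.1
  have h₃ := WeierstrassCurve.Affine.nonsingular_add h₁ h₂ hxy
  have eX' : ((W.toProjective.addX P Q * Zi : A) : K) = (W.map A.subtype).toAffine.addX x₁ x₂
      ((W.map A.subtype).toAffine.slope x₁ x₂ y₁ y₂) := by
    rw [hZK]; exact eX
  have eY' : ((W.toProjective.addY P Q * Zi : A) : K) = (W.map A.subtype).toAffine.addY x₁ x₂ y₁
      ((W.map A.subtype).toAffine.slope x₁ x₂ y₁ y₂) := by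
    rw [hZK]; exact eY
  refine ⟨W.toProjective.addX P Q * Zi, W.toProjective.addY P Q * Zi,
    by rw [eX', eY']; exact h₃, ?_, by simp [hX, hZik], by simp [hY, hZik]⟩
  rw [Point.add_some hxy]
  simp only [eX', eY']

/-- Addition of two points with integral nonsingular reductions. -/
theorem inE0_add_and_red_add_integral (M : RedModel A V Vb) {x₁ y₁ x₂ y₂ : A}
    (h₁ : V.Nonsingular x₁ y₁) (h₂ : V.Nonsingular x₂ y₂)
    (hns₁ : Vb.Nonsingular (residue A x₁) (residue A y₁))
    (hns₂ : Vb.Nonsingular (residue A x₂) (residue A y₂)) :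
    M.InE0 (Point.some _ _ h₁ + Point.some _ _ h₂) ∧
      M.red (Point.some _ _ h₁ + Point.some _ _ h₂) =
        Point.some _ _ hns₁ + Point.some _ _ hns₂ := by
  obtain ⟨W, rfl, rfl⟩ := M
  set VK := (W.map A.subtype).toAffine with hVK
  set Vk := (W.map (residue A)).toAffine with hVk
  have ek : Vk.negY (residue A x₂) (residue A y₂) = residue A (W.toAffine.negY x₂ y₂) :=
    WeierstrassCurve.Affine.map_negY (W' := W.toAffine) (residue A) x₂ y₂
  by_cases hxy : (x₁ : K) = x₂ ∧ (y₁ : K) = VK.negY x₂ y₂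
  · rw [Point.add_of_Y_eq hxy.1 hxy.2]
    have hx : x₁ = x₂ := Subtype.ext hxy.1
    have hy : y₁ = W.toAffine.negY x₂ y₂ := Subtype.ext (hxy.2.trans
      (WeierstrassCurve.Affine.map_negY (W' := W.toAffine) A.subtype x₂ y₂))
    subst hx hy
    refine ⟨Or.inl rfl, ?_⟩
    rw [Point.add_of_Y_eq rfl ek.symm]
    rfl
  obtain ⟨k₁, k₂⟩ := slope_mul_eq h₁.1 h₂.1 hxy
  set lam := VK.slope (x₁ : K) x₂ y₁ y₂ with hlam
  have h₃ := WeierstrassCurve.Affine.nonsingular_add h₁ h₂ hxy
  rw [← hlam] at h₃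
  rw [Point.add_some hxy]
  simp only [← hlam]
  let D : A := x₁ - x₂
  let E : A := y₁ - y₂
  let U : A := y₁ + y₂ + W.a₁ * x₂ + W.a₃
  let N : A := x₁ ^ 2 + x₁ * x₂ + x₂ ^ 2 + W.a₂ * (x₁ + x₂) + W.a₄ - W.a₁ * y₁
  have kD : lam * (D : K) = E := by simp [D, E, k₁]
  have kU : lam * (U : K) = N := by
    simpa [U, N, hVK] using k₂
  by_cases hk : residue A x₁ = residue A x₂ ∧
      residue A y₁ = Vk.negY (residue A x₂) (residue A y₂)
  · -- the reductions are opposite
    rw [Point.add_of_Y_eq hk.1 hk.2]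
    have hlA : lam ∉ A := by
      intro hl
      have eD : residue A E = residue A ⟨lam, hl⟩ * residue A D := by
        rw [← map_mul]
        exact congrArg _ (Subtype.ext kD.symm)
      have eU : residue A N = residue A ⟨lam, hl⟩ * residue A U := by
        rw [← map_mul]
        exact congrArg _ (Subtype.ext kU.symm)
      have hD : residue A D = 0 := by simp [D, hk.1]
      have hU : residue A U = 0 := by
        have hy := hk.2
        simp [WeierstrassCurve.Affine.negY, hVk] at hy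
        simp [U, hy]; ring
      rw [hD, mul_zero] at eD
      rw [hU, mul_zero] at eU
      have hyy : residue A y₁ = residue A y₂ := by simpa [E, sub_eq_zero] using eD
      rcases ((WeierstrassCurve.Affine.nonsingular_iff' ..).1 hns₁).2 with hX | hY
      · apply hX
        simp
        simp [N, ← hk.1] at eU
        linear_combination -eU
      · apply hY
        simp
        simp [U, ← hk.1, ← hyy] at hU
        linear_combination hU
    have hla : lam + (W.a₁ : K) ∉ A := by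
      intro h
      apply hlA
      simpa using sub_mem h W.a₁.2
    have hx3 : VK.addX (x₁ : K) x₂ lam ∉ A := by
      intro h
      apply mul_not_mem hlA hla
      have e : lam * (lam + (W.a₁ : K)) =
          VK.addX (x₁ : K) x₂ lam + ((W.a₂ + x₁ + x₂ : A) : K) := by
        simp [hVK, WeierstrassCurve.Affine.addX]
        ring
      rw [e]
      exact A.add_mem _ _ h (W.a₂ + x₁ + x₂).2
    exact ⟨inE0_some_of_not_mem _ h₃ hx3, red_some_of_not_mem _ h₃ hx3⟩
  · -- the slope is integral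
    obtain ⟨l₁, l₂⟩ := slope_mul_eq hns₁.1 hns₂.1 hk
    set lk := Vk.slope (residue A x₁) (residue A x₂) (residue A y₁) (residue A y₂) with hlk
    have kD' : lk * residue A D = residue A E := by simp [D, E, l₁]
    have kU' : lk * residue A U = residue A N := by
      simpa [U, N, hVk] using l₂
    obtain ⟨ℓ, hℓ, hℓk⟩ : ∃ ℓ : A, (ℓ : K) = lam ∧ residue A ℓ = lk := by
      have key : ∀ a b : A, residue A b ≠ 0 → lam * (b : K) = a → lk * residue A b = residue A a →
          ∃ ℓ : A, (ℓ : K) = lam ∧ residue A ℓ = lk := by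
        intro a b hb ha hak
        obtain ⟨c, hc⟩ := ((residue_ne_zero_iff_isUnit b).1 hb).exists_right_inv
        have hcK : (b : K) * c = 1 := congrArg Subtype.val hc
        have hck : residue A b * residue A c = 1 := by rw [← map_mul, hc, map_one]
        refine ⟨a * c, ?_, ?_⟩
        · push_cast
          linear_combination lam * hcK - (c : K) * ha
        · rw [map_mul]
          linear_combination lk * hck - residue A c * hak
      by_cases hD : residue A D = 0
      · refine key N U ?_ kU kU'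
        intro hU
        have hx : residue A x₁ = residue A x₂ := by simpa [D, sub_eq_zero] using hD
        apply hk
        refine ⟨hx, ?_⟩
        simp [U] at hU
        simp [WeierstrassCurve.Affine.negY, hVk]
        linear_combination hU
      · exact key E D hD kD kD'
    have eX : VK.addX (x₁ : K) x₂ lam = (W.toAffine.addX x₁ x₂ ℓ : A) := by
      rw [← hℓ]; exact WeierstrassCurve.Affine.map_addX (W' := W.toAffine) A.subtype x₁ x₂ ℓ
    have eY : VK.addY (x₁ : K) x₂ y₁ lam = (W.toAffine.addY x₁ x₂ y₁ ℓ : A) := by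
      rw [← hℓ]; exact WeierstrassCurve.Affine.map_addY (W' := W.toAffine) A.subtype x₁ y₁ x₂ ℓ
    have eXk : Vk.addX (residue A x₁) (residue A x₂) lk = residue A (W.toAffine.addX x₁ x₂ ℓ) := by
      rw [← hℓk]; exact WeierstrassCurve.Affine.map_addX (W' := W.toAffine) (residue A) x₁ x₂ ℓ
    have eYk : Vk.addY (residue A x₁) (residue A x₂) (residue A y₁) lk =
        residue A (W.toAffine.addY x₁ x₂ y₁ ℓ) := by
      rw [← hℓk]
      exact WeierstrassCurve.Affine.map_addY (W' := W.toAffine) (residue A) x₁ y₁ x₂ ℓ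
    have hk₃ := WeierstrassCurve.Affine.nonsingular_add hns₁ hns₂ hk
    rw [← hlk, eXk, eYk] at hk₃
    rw [Point.add_some hk]
    simp only [← hlk, eX, eY, eXk, eYk]
    have h₃' : VK.Nonsingular (W.toAffine.addX x₁ x₂ ℓ : A) (W.toAffine.addY x₁ x₂ y₁ ℓ : A) := by
      rw [← eX, ← eY]; exact h₃
    exact ⟨inE0_some_of_nonsingular _ h₃' (W.toAffine.addX x₁ x₂ ℓ).2
        (W.toAffine.addY x₁ x₂ y₁ ℓ).2 hk₃,
      red_some_coe _ h₃' hk₃⟩

theorem inE0_add_and_red_add (M : RedModel A V Vb) {P Q : V.Point} (hP : M.InE0 P)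
    (hQ : M.InE0 Q) : M.InE0 (P + Q) ∧ M.red (P + Q) = M.red P + M.red Q := by
  rcases M.inE0_cases hP with rfl | ⟨x₁, y₁, h₁, rfl, hx₁⟩ | ⟨x₁, y₁, h₁, rfl, hns₁⟩
  · simpa using hQ
  · rw [M.red_some_of_not_mem h₁ hx₁, zero_add]
    rcases M.inE0_cases hQ with rfl | ⟨x₂, y₂, h₂, rfl, hx₂⟩ | ⟨x₂, y₂, h₂, rfl, hns₂⟩
    · exact ⟨by simpa using hP, by simpa using M.red_some_of_not_mem h₁ hx₁⟩
    · rw [M.red_some_of_not_mem h₂ hx₂]
      rcases hR : Point.some _ _ h₁ + Point.some _ _ h₂ with _ | ⟨x₃, y₃, h₃⟩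
      · exact ⟨Or.inl rfl, rfl⟩
      · by_cases hx₃ : x₃ ∈ A
        · exfalso
          obtain ⟨x₄, y₄, h₄, he, -⟩ := M.exists_add_of_not_mem
            ((WeierstrassCurve.Affine.nonsingular_neg ..).2 h₁) hx₁
            (x₂ := ⟨x₃, hx₃⟩) (y₂ := ⟨y₃, M.mem_y_of_mem_x h₃.1 hx₃⟩) h₃
          have e : -Point.some _ _ h₁ + Point.some _ _ h₃ = Point.some _ _ h₂ := by
            rw [← hR, neg_add_cancel_left]
          rw [WeierstrassCurve.Affine.Point.neg_some] at e
          rw [e, WeierstrassCurve.Affine.Point.some.injEq] at he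
          exact hx₂ (he.1 ▸ x₄.2)
        · exact ⟨M.inE0_some_of_not_mem h₃ hx₃, M.red_some_of_not_mem h₃ hx₃⟩
    · obtain ⟨x₃, y₃, h₃, he, ex, ey⟩ := M.exists_add_of_not_mem h₁ hx₁ h₂
      have hns₃ : Vb.Nonsingular (residue A x₃) (residue A y₃) := by rwa [ex, ey]
      rw [he, M.red_some_coe h₃ hns₃, M.red_some_coe h₂ hns₂]
      exact ⟨M.inE0_some_of_nonsingular h₃ x₃.2 y₃.2 hns₃, by simp only [ex, ey]⟩
  · rw [M.red_some_coe h₁ hns₁]
    rcases M.inE0_cases hQ with rfl | ⟨x₂, y₂, h₂, rfl, hx₂⟩ | ⟨x₂, y₂, h₂, rfl, hns₂⟩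
    · exact ⟨by simpa using hP, by simp [M.red_some_coe h₁ hns₁]⟩
    · rw [M.red_some_of_not_mem h₂ hx₂, add_zero]
      obtain ⟨x₃, y₃, h₃, he, ex, ey⟩ := M.exists_add_of_not_mem h₂ hx₂ h₁
      have hns₃ : Vb.Nonsingular (residue A x₃) (residue A y₃) := by rwa [ex, ey]
      rw [add_comm (Point.some _ _ h₁), he, M.red_some_coe h₃ hns₃]
      exact ⟨M.inE0_some_of_nonsingular h₃ x₃.2 y₃.2 hns₃, by simp only [ex, ey]⟩
    · rw [M.red_some_coe h₂ hns₂]
      exact M.inE0_add_and_red_add_integral h₁ h₂ hns₁ hns₂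

theorem inE0_add (M : RedModel A V Vb) {P Q : V.Point} (hP : M.InE0 P) (hQ : M.InE0 Q) :
    M.InE0 (P + Q) :=
  (M.inE0_add_and_red_add hP hQ).1

theorem red_add (M : RedModel A V Vb) {P Q : V.Point} (hP : M.InE0 P) (hQ : M.InE0 Q) :
    M.red (P + Q) = M.red P + M.red Q :=
  (M.inE0_add_and_red_add hP hQ).2

/-- The subgroup of points with nonsingular reduction. -/
def E0 (M : RedModel A V Vb) : AddSubgroup V.Point where
  carrier := {P | M.InE0 P}
  zero_mem' := M.inE0_zero
  add_mem' := M.inE0_add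
  neg_mem' := M.inE0_neg

theorem mem_E0_iff (M : RedModel A V Vb) {P : V.Point} : P ∈ M.E0 ↔ M.InE0 P := Iff.rfl

/-- Reduction on `E₀` as a homomorphism. -/
noncomputable def redE0 (M : RedModel A V Vb) : M.E0 →+ Vb.Point where
  toFun P := M.red P.1
  map_zero' := M.red_zero
  map_add' P Q := M.red_add P.2 Q.2

/-- Reduction homomorphism in the case of good reduction. -/
noncomputable def redHom (M : RedModel A V Vb) (hΔ : Vb.Δ ≠ 0) : V.Point →+ Vb.Point where
  toFun := M.red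
  map_zero' := M.red_zero
  map_add' P Q := M.red_add (M.inE0_of_Δ_ne_zero hΔ P) (M.inE0_of_Δ_ne_zero hΔ Q)

@[simp]
theorem redHom_apply (M : RedModel A V Vb) (hΔ : Vb.Δ ≠ 0) (P : V.Point) :
    M.redHom hΔ P = M.red P := rfl

end RedModel

end Fermat.Agent.EC
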