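import Mathlib.AlgebraicGeometry.EllipticCurve.Affine.Point
import Mathlib.RingTheory.Valuation.ValuationSubring
import Mathlib.RingTheory.LocalRing.ResidueField.Basic

/-!
# Reduction of Weierstrass curves at a valuation subring

`RedModel A V Vb` says: `V` has an integral model over `A` with special fibre `Vb`.
`RedModel.red` is the reduction of points; points outside the nonsingular locus go to `0`.
-/

set_option autoImplicit false

open IsLocalRing
open WeierstrassCurve.Affine (Point)

namespace Fermat.Agent.EC

variable {K : Type*} [Field K] (A : ValuationSubring K)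

/-- An integral model of `V` over `A` whose special fibre is `Vb`. -/
structure RedModel (V : WeierstrassCurve.Affine K)
    (Vb : WeierstrassCurve.Affine (ResidueField A)) where
  W : WeierstrassCurve A
  map_subtype : W.map A.subtype = V
  map_residue : W.map (residue A) = Vb

namespace RedModel

variable {A} {V : WeierstrassCurve.Affine K} {Vb : WeierstrassCurve.Affine (ResidueField A)}
variable (M : RedModel A V Vb)

open scoped Classical in
/-- Reduction of points. A point without integral nonsingular reduction goes to `0`. -/
noncomputable def red (_M : RedModel A V Vb) : V.Point → Vb.Point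
  | .zero => 0
  | .some x y _ =>
    if h : ∃ (hx : x ∈ A) (hy : y ∈ A),
        Vb.Nonsingular (residue A ⟨x, hx⟩) (residue A ⟨y, hy⟩) then
      .some _ _ h.choose_spec.choose_spec
    else 0

/-- The points reducing into the nonsingular locus of the special fibre. -/
def InE0 (_M : RedModel A V Vb) (P : V.Point) : Prop :=
  P = 0 ∨ ∃ (x y : K) (h : V.Nonsingular x y), P = .some x y h ∧
    (x ∉ A ∨ ∃ (hx : x ∈ A) (hy : y ∈ A),
      Vb.Nonsingular (residue A ⟨x, hx⟩) (residue A ⟨y, hy⟩))

@[simp]
theorem red_zero : M.red 0 = 0 := rfl

theorem red_some {x y : K} (h : V.Nonsingular x y) (hx : x ∈ A) (hy : y ∈ A)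
    (hns : Vb.Nonsingular (residue A ⟨x, hx⟩) (residue A ⟨y, hy⟩)) :
    M.red (.some x y h) = .some _ _ hns := by
  classical
  exact dif_pos ⟨hx, hy, hns⟩

theorem red_some_of_not_mem {x y : K} (h : V.Nonsingular x y) (hx : x ∉ A) :
    M.red (.some x y h) = 0 := by
  classical
  exact dif_neg fun ⟨hx', _⟩ => hx hx'

end RedModel

end Fermat.Agent.EC
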